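/-
S17 / tower H / TOP-GLUE — leaf T-MINK (subtask 607), helper696.

`topMink T : T.MinkStatement` for every `T : H736.TopInput N` (exact T-DATA shape of helper736,
`S17/H736/TopData.lean`), from helper980's `H980.exists_form_through` (Siegel + Riemann–Roch +
Galois descent, `S17/H980/PosLinEmb.lean`) and helper35's reduced-divisor calculus.
No hypotheses.  Constant: `C = k log k`, `k = r + 1 - d = m - d + 1 - g`.
-/
import Fermat.Agent.S17.H736.TopData
import Fermat.Agent.S17.H35.ContractPkg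

set_option autoImplicit false

noncomputable section

open AlgebraicCurve ModularCurve

namespace Fermat.Agent.S17.H696

open Fermat.Agent.Lib.RR Fermat.Agent.S17.HWall Fermat.Agent.S17.HContract
open Fermat.Agent.S17.H77 Fermat.Agent.S17.H680 Fermat.Agent.S17.H980 Fermat.Agent.S17.H736

variable {N : ℕ} [NeZero N]

/-- a good divisor is reduced -/
theorem good_reduced (T : TopInput N) {D : Dv N} (h : T.Good D) (P) : D.1 P = 0 ∨ D.1 P = 1 := by
  have h1 := D.apply_nonneg P
  have h2 := h.1 P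
  omega

/-- a good divisor of degree `d` has `d` points -/
theorem good_card (T : TopInput N) {D : Dv N} (h : T.Good D) :
    D.1.support.card = degHom N D := by
  have h1 := H35.card_support_of_reduced D.1 (good_reduced T h)
  rw [← coe_degHom] at h1
  exact_mod_cast h1

/-- **T-MINK**: the (MINK) axiom of the pairing package of `J₀(N)`. -/
theorem topMink (T : TopInput N) : T.MinkStatement := by
  classical
  refine ⟨((T.E₂.r + 1 - T.d : ℕ) : ℝ) * Real.log ((T.E₂.r + 1 - T.d : ℕ) : ℝ),
    fun D hgood hdeg => ?_⟩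
  have hred := good_reduced T hgood
  have hcard : D.1.support.card = T.d := (good_card T hgood).trans hdeg
  have hsum : D.1 = H980.sumPrim (TopInput.enum D) := H35.eq_sumPrim_of_reduced D.1 hred
  have hinv : IsInvariant (modularFunctionFieldFull N) (H980.sumPrim (TopInput.enum D)) := by
    rw [← hsum]
    exact D.isInvariant
  have hg : genusFF Qb (modularFunctionFieldBar N) = genusR Qb (modularFunctionFieldBar N) :=
    genusFF_eq_genusR
  have h4 := T.four_d_le_m
  have hr := H980.r_add_one_eq T.E₂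
  rw [hg] at hr
  obtain ⟨a, ha0, hle, hht⟩ := H980.exists_form_through (modularFunctionFieldFull N) T.E₂
    T.x_fixed T.isInvariant_vinf₂ (TopInput.enum D) (TopInput.enum_injective D) hinv
    (by rw [hg, hcard]; omega)
  have hkeq : T.E₂.r + 1 - D.1.support.card = T.E₂.r + 1 - T.d := by rw [hcard]
  rw [hkeq] at hht
  -- the rational form
  have hcast : (fun j => ((a j : ℤ) : Qb)) = castQ (fun j => ((a j : ℤ) : ℚ)) := by
    funext j
    simp [castQ]
  have ha0' : (fun j => ((a j : ℤ) : ℚ)) ≠ 0 := by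
    intro h
    apply ha0
    funext j
    have := congrFun h j
    simpa using this
  rw [hcast] at hle hht
  rw [← hsum] at hle
  let aL : T.Lin := ⟨fun j => ((a j : ℤ) : ℚ), ha0'⟩
  have hZinv := (T.ZL aL).isInvariant
  refine ⟨aL, ⟨T.E₂.Z (castQ aL.1) - D.1, sub_nonneg.2 hle, fun σ => ?_⟩, ?_, ?_⟩
  · rw [smul_sub, D.isInvariant σ]
    congr 1
    exact hZinv σ
  · apply Subtype.ext
    show T.E₂.Z (castQ aL.1) = D.1 + (T.E₂.Z (castQ aL.1) - D.1)
    abel
  · have hk : (((T.E₂.r + 1 - T.d : ℕ) : ℕ) : ℝ) = (T.m : ℝ) - T.d + 1 - T.g := by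
      have h1 : T.d ≤ T.E₂.r + 1 := by
        have : (T.d : ℤ) ≤ ((T.E₂.r + 1 : ℕ) : ℤ) := by rw [hr]; omega
        exact_mod_cast this
      rw [Nat.cast_sub h1]
      have h2 : (((T.E₂.r + 1 : ℕ) : ℤ) : ℝ) =
          ((T.E₂.m : ℤ) : ℝ) + 1 - ((genusR Qb (modularFunctionFieldBar N) : ℤ) : ℝ) := by
        rw [hr]
        push_cast
        ring
      have h3 : ((T.E₂.r + 1 : ℕ) : ℝ) = (T.E₂.m : ℝ) + 1 -
          (genusR Qb (modularFunctionFieldBar N) : ℝ) := by
        exact_mod_cast h2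
      rw [h3]
      unfold TopInput.m TopInput.g
      ring
    have hkpos : (0 : ℝ) < ((T.E₂.r + 1 - T.d : ℕ) : ℝ) := by
      have : 0 < T.E₂.r + 1 - T.d := by
        have : (T.d : ℤ) < ((T.E₂.r + 1 : ℕ) : ℤ) := by rw [hr]; omega
        have : T.d < T.E₂.r + 1 := by exact_mod_cast this
        omega
      exact_mod_cast this
    rw [← hk]
    show ((T.E₂.r + 1 - T.d : ℕ) : ℝ) * ht (castQ aL.1) ≤
      ht (plucker fun i => T.E₂.pt (TopInput.enum D i)) + _
    calc ((T.E₂.r + 1 - T.d : ℕ) : ℝ) * ht (castQ aL.1)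
        ≤ ((T.E₂.r + 1 - T.d : ℕ) : ℝ) * ((1 / ((T.E₂.r + 1 - T.d : ℕ) : ℝ)) *
            ht (plucker fun i => T.E₂.pt (TopInput.enum D i)) +
              Real.log ((T.E₂.r + 1 - T.d : ℕ) : ℝ)) :=
          mul_le_mul_of_nonneg_left hht hkpos.le
      _ = ht (plucker fun i => T.E₂.pt (TopInput.enum D i)) +
            ((T.E₂.r + 1 - T.d : ℕ) : ℝ) * Real.log ((T.E₂.r + 1 - T.d : ℕ) : ℝ) := by
          field_simp

end Fermat.Agent.S17.H696

end
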