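/-
S17 / tower H / TOP-GLUE — leaf T-NC (subtask 607), helper696.

`topNorthcott T : T.NorthcottStatement` for every `T : H736.TopInput N` (exact T-DATA shape of
helper736, `S17/H736/TopData.lean`): there are only finitely many effective Galois-invariant
divisors `D` with `deg D ≤ e` and naive height `N(D) = Σ_P D(P) h(E₂.pt P) ≤ B`.  No hypotheses.

Route: `D ↦ cyc E D`, the multiset of the NORMALISED coordinate vectors `npt P` (`pt P` divided by
its first non-zero coordinate) of the points of `D`, with multiplicities, is injective, has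
`card = deg D`, `cycAbs = N(D)`, and is Galois-stable when `D` is invariant and the embedding is
rational (`pt (σ P) = c • σ (pt P)`); conclude by helper50's `H50.northcott_cycle_abs`.
-/
import Fermat.Agent.S17.H736.TopData
import Fermat.Agent.S17.H35.ContractSum
import Fermat.Agent.S17.H50.AbsNorthcott
import Fermat.Agent.S17.H50.EmbBasic

set_option autoImplicit false
set_option linter.unusedSectionVars false

noncomputable section

open AlgebraicCurve ModularCurve

namespace Fermat.Agent.S17.H696

open Fermat.Agent.Lib.RR Fermat.Agent.S17.HWall Fermat.Agent.S17.HContract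
open Fermat.Agent.S17.H77 Fermat.Agent.S17.H680

/-! ## Linear algebra -/

section LinAlg

variable {K : Type*} [Field K] {n : ℕ}

/-- If every linear form vanishing at `u ≠ 0` vanishes at `v`, then `v` is a multiple of `u`. -/
theorem exists_smul_eq_of_dot (u v : Fin n → K) (hu : u ≠ 0)
    (h : ∀ a : Fin n → K, dot a u = 0 → dot a v = 0) : ∃ c : K, v = c • u := by
  classical
  obtain ⟨i, hi⟩ : ∃ i, u i ≠ 0 := by
    by_contra hcon
    apply hu
    funext j
    by_contra hj
    exact hcon ⟨j, hj⟩
  refine ⟨v i / u i, ?_⟩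
  funext j
  have h1 := h (Pi.single j (u i) - Pi.single i (u j)) (by
    unfold dot
    rw [sub_dotProduct, single_dotProduct, single_dotProduct]
    ring)
  unfold dot at h1
  rw [sub_dotProduct, single_dotProduct, single_dotProduct] at h1
  rw [Pi.smul_apply, smul_eq_mul]
  field_simp
  linear_combination h1

/-- the coordinatewise Galois conjugate of a vector -/
def conj (σ : GQ) (a : Fin n → Qb) : Fin n → Qb := fun i => σ (a i)

@[simp] theorem conj_apply (σ : GQ) (a : Fin n → Qb) (i : Fin n) : conj σ a i = σ (a i) := rfl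

theorem conj_dot (σ : GQ) (a b : Fin n → Qb) : dot (conj σ a) (conj σ b) = σ (dot a b) := by
  simp [dot, dotProduct, conj, map_sum, map_mul]

theorem conj_conj_symm (σ : GQ) (a : Fin n → Qb) : conj σ (conj σ⁻¹ a) = a := by
  funext i
  show σ (σ⁻¹ (a i)) = a i
  exact AlgEquiv.apply_symm_apply σ (a i)

theorem conj_ne_zero (σ : GQ) {a : Fin n → Qb} (ha : a ≠ 0) : conj σ a ≠ 0 := by
  intro h
  apply ha
  funext i
  have := congrFun h i
  simpa [conj] using this

/-- a canonical element of a non-empty finite set of indices -/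
def pick (s : Finset (Fin (n + 1))) : Fin (n + 1) := if h : s.Nonempty then s.min' h else 0

theorem pick_mem {s : Finset (Fin (n + 1))} (h : s.Nonempty) : pick s ∈ s := by
  unfold pick
  rw [dif_pos h]
  exact Finset.min'_mem s h

/-- `Σ_{a ∈ toMultiset f} h a = Σ_a f(a) h(a)`. -/
theorem sum_map_toMultiset {α : Type*} (f : α →₀ ℕ) (h : α → ℝ) :
    ((Finsupp.toMultiset f).map h).sum = f.sum fun a k => (k : ℝ) * h a := by
  induction f using Finsupp.induction_linear with
  | zero => simp
  | add f g hf hg =>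
    rw [map_add, Multiset.map_add, Multiset.sum_add, hf, hg,
      Finsupp.sum_add_index' (by simp) (by intro a b₁ b₂; push_cast; ring)]
  | single a k =>
    rw [Finsupp.toMultiset_single, Multiset.map_nsmul, Multiset.sum_nsmul,
      Finsupp.sum_single_index (by simp)]
    simp

end LinAlg

/-! ## Rational embeddings -/

section Rational

variable (F₀ : IntermediateField ℚ (LaurentSeries ℚ)) [FF1 Qb (laurentBaseChange Qb F₀)]

/-- A rational embedding datum: Galois-fixed basis, Galois-fixed point at infinity. -/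
structure IsRational (E : EmbData Qb (laurentBaseChange Qb F₀)) : Prop where
  x_fixed : ∀ i, IsFixed F₀ (E.x i)
  vinf_fixed : ∀ σ : GQ, arithmeticGalois F₀ σ • E.vinf = E.vinf

variable {F₀}
variable {E : EmbData Qb (laurentBaseChange Qb F₀)}

omit [FF1 Qb (laurentBaseChange Qb F₀)] in
/-- linear forms in a fixed basis are Galois-equivariant -/
theorem smul_lin_of_fixed {n : ℕ} (x : Fin n → laurentBaseChange Qb F₀)
    (hx : ∀ i, IsFixed F₀ (x i)) (σ : GQ) (a : Fin n → Qb) :
    arithmeticGalois F₀ σ • lin x a = lin x (conj σ a) := by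
  unfold lin
  rw [Finset.smul_sum]
  refine Finset.sum_congr rfl fun i _ => ?_
  rw [arithmeticGalois_smul_smul, hx i σ]
  rfl

theorem IsRational.smul_lin (hE : IsRational F₀ E) (σ : GQ) (a : Fin (E.r + 1) → Qb) :
    arithmeticGalois F₀ σ • lin E.x a = lin E.x (conj σ a) :=
  smul_lin_of_fixed E.x hE.x_fixed σ a

/-- hyperplane sections are Galois-equivariant -/
theorem IsRational.Z_conj (hE : IsRational F₀ E) (σ : GQ) {a : Fin (E.r + 1) → Qb}
    (ha : a ≠ 0) (P : Place Qb (laurentBaseChange Qb F₀)) :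
    E.Z (conj σ a) (arithmeticGalois F₀ σ • P) = E.Z a P := by
  rw [E.Z_apply (conj_ne_zero σ ha), E.Z_apply ha, ← hE.smul_lin σ a, SemilinearAut.ord_smul]
  congr 1
  have h1 : (E.m • prim E.vinf : Divisor Qb (laurentBaseChange Qb F₀)) =
      arithmeticGalois F₀ σ • (E.m • prim E.vinf : Divisor Qb (laurentBaseChange Qb F₀)) := by
    rw [smul_comm, H680.smul_prim, hE.vinf_fixed σ]
  conv_lhs => rw [h1]
  exact SemilinearAut.divisor_smul_apply_smul _ _ _

/-- `pt (σ P)` is proportional to `σ (pt P)`. -/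
theorem IsRational.exists_pt_smul_eq (hE : IsRational F₀ E) (σ : GQ)
    (P : Place Qb (laurentBaseChange Qb F₀)) :
    ∃ c : Qb, c ≠ 0 ∧ E.pt (arithmeticGalois F₀ σ • P) = c • conj σ (E.pt P) := by
  have hu : conj σ (E.pt P) ≠ 0 := conj_ne_zero σ (H50.Emb.pt_ne_zero E P)
  obtain ⟨c, hc⟩ := exists_smul_eq_of_dot (conj σ (E.pt P)) (E.pt (arithmeticGalois F₀ σ • P)) hu
    (by
      intro a ha
      by_cases ha0 : a = 0
      · rw [ha0]
        simp [dot]
      have hb0 : conj σ⁻¹ a ≠ 0 := conj_ne_zero σ⁻¹ ha0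
      have h1 : dot (conj σ⁻¹ a) (E.pt P) = 0 := by
        have h2 := conj_dot σ⁻¹ a (conj σ (E.pt P))
        have h3 : conj σ⁻¹ (conj σ (E.pt P)) = E.pt P := by
          have := conj_conj_symm σ⁻¹ (E.pt P)
          rwa [inv_inv] at this
        rw [h3, ha, map_zero] at h2
        exact h2
      have h4 : 0 < E.Z (conj σ⁻¹ a) P := (E.pt_spec P _ hb0).1 h1
      rw [← hE.Z_conj σ hb0 P, conj_conj_symm] at h4
      exact (E.pt_spec _ a ha0).2 h4)
  refine ⟨c, ?_, hc⟩
  rintro rfl
  rw [zero_smul] at hc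
  exact H50.Emb.pt_ne_zero E _ hc

/-! ## Normalised points -/

variable (E)

open Classical in
/-- the set of indices of the non-zero coordinates of `pt P` -/
def nzSet (P : Place Qb (laurentBaseChange Qb F₀)) : Finset (Fin (E.r + 1)) :=
  Finset.univ.filter fun i => E.pt P i ≠ 0

/-- the first index of a non-zero coordinate of `pt P` -/
def nz (P : Place Qb (laurentBaseChange Qb F₀)) : Fin (E.r + 1) := pick (nzSet E P)

/-- the normalised coordinate vector of `P` -/
def npt (P : Place Qb (laurentBaseChange Qb F₀)) : Fin (E.r + 1) → Qb :=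
  (E.pt P (nz E P))⁻¹ • E.pt P

variable {E}

theorem mem_nzSet {P : Place Qb (laurentBaseChange Qb F₀)} {i : Fin (E.r + 1)} :
    i ∈ nzSet E P ↔ E.pt P i ≠ 0 := by
  unfold nzSet
  simp

theorem nzSet_nonempty (P : Place Qb (laurentBaseChange Qb F₀)) : (nzSet E P).Nonempty := by
  by_contra h
  rw [Finset.not_nonempty_iff_eq_empty] at h
  apply H50.Emb.pt_ne_zero E P
  funext i
  by_contra hi
  have : i ∈ nzSet E P := mem_nzSet.2 hi
  rw [h] at this
  simp at this

theorem pt_nz_ne_zero (P : Place Qb (laurentBaseChange Qb F₀)) : E.pt P (nz E P) ≠ 0 :=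
  mem_nzSet.1 (pick_mem (nzSet_nonempty P))

theorem npt_nz (P : Place Qb (laurentBaseChange Qb F₀)) : npt E P (nz E P) = 1 := by
  unfold npt
  rw [Pi.smul_apply, smul_eq_mul, inv_mul_cancel₀ (pt_nz_ne_zero P)]

theorem ht_npt (P : Place Qb (laurentBaseChange Qb F₀)) : ht (npt E P) = ht (E.pt P) :=
  Fermat.Agent.S17.H380.absLogHeight_smul _ (fun _ => H50.isIntegral_Qb _)
    (inv_ne_zero (pt_nz_ne_zero P)) (H50.isIntegral_Qb _)

theorem npt_injective : Function.Injective (npt E) := by
  intro A P h
  by_contra hAP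
  obtain ⟨a, ha, hA, hP⟩ := H50.Emb.exists_Z_pos_Z_eq_zero E hAP
  have h1 : dot a (E.pt A) = 0 := (E.pt_spec A a ha).2 hA
  have h2 : dot a (npt E A) = 0 := by
    unfold npt dot
    rw [dotProduct_smul]
    unfold dot at h1
    rw [h1, smul_zero]
  rw [h] at h2
  have h3 : dot a (E.pt P) = 0 := by
    unfold npt dot at h2
    rw [dotProduct_smul, smul_eq_mul] at h2
    exact (mul_eq_zero.1 h2).resolve_left (inv_ne_zero (pt_nz_ne_zero P))
  have := (E.pt_spec P a ha).1 h3
  change 0 < E.Z a P at this
  omega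

theorem IsRational.npt_smul (hE : IsRational F₀ E) (σ : GQ)
    (P : Place Qb (laurentBaseChange Qb F₀)) :
    npt E (arithmeticGalois F₀ σ • P) = conj σ (npt E P) := by
  obtain ⟨c, hc0, hc⟩ := hE.exists_pt_smul_eq σ P
  have hset : nzSet E (arithmeticGalois F₀ σ • P) = nzSet E P := by
    ext i
    rw [mem_nzSet, mem_nzSet, hc]
    simp [conj, hc0]
  have hnz : nz E (arithmeticGalois F₀ σ • P) = nz E P := by
    unfold nz
    rw [hset]
  funext j
  unfold npt
  rw [hnz, hc]
  simp only [Pi.smul_apply, smul_eq_mul, conj_apply, map_mul, map_inv₀]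
  have h1 : σ (E.pt P (nz E P)) ≠ 0 := by
    simpa using pt_nz_ne_zero P
  field_simp

/-! ## The cycle of a divisor -/

/-- the multiplicities of an effective divisor, as natural numbers -/
def natD (D : Divisor Qb (laurentBaseChange Qb F₀)) :
    Place Qb (laurentBaseChange Qb F₀) →₀ ℕ :=
  D.mapRange Int.toNat rfl

@[simp] theorem natD_apply (D : Divisor Qb (laurentBaseChange Qb F₀))
    (P : Place Qb (laurentBaseChange Qb F₀)) : natD D P = (D P).toNat := rfl

theorem natD_smul (σ : GQ) (D : Divisor Qb (laurentBaseChange Qb F₀)) :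
    natD (arithmeticGalois F₀ σ • D) =
      (natD D).mapDomain (fun P => arithmeticGalois F₀ σ • P) := by
  ext w
  have hw : w = arithmeticGalois F₀ σ • ((arithmeticGalois F₀ σ)⁻¹ • w) := by
    rw [smul_inv_smul]
  rw [natD_apply]
  conv_rhs => rw [hw]
  rw [Finsupp.mapDomain_apply (MulAction.injective (arithmeticGalois F₀ σ)), natD_apply,
    SemilinearAut.divisor_smul_apply]

variable (E)

/-- the cycle of normalised points of a divisor -/
def cyc (D : Divisor Qb (laurentBaseChange Qb F₀)) : Multiset (Fin (E.r + 1) → Qb) :=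
  (Finsupp.toMultiset (natD D)).map (npt E)

variable {E}

theorem sum_natD {D : Divisor Qb (laurentBaseChange Qb F₀)} (hD : 0 ≤ D) (h : _ → ℝ) :
    ((natD D).sum fun P k => (k : ℝ) * h P) = D.sum fun P k => (k : ℝ) * h P := by
  unfold natD
  rw [Finsupp.sum_mapRange_index (by simp)]
  unfold Finsupp.sum
  refine Finset.sum_congr rfl fun P _ => ?_
  have h0 : 0 ≤ D P := by
    have := Finsupp.le_def.mp hD P
    simpa using this
  have h1 : (((D P).toNat : ℕ) : ℝ) = ((D P : ℤ) : ℝ) := by
    have h2 : (((D P).toNat : ℕ) : ℤ) = D P := Int.toNat_of_nonneg h0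
    exact_mod_cast h2
  show (((D P).toNat : ℕ) : ℝ) * h P = ((D P : ℤ) : ℝ) * h P
  rw [h1]

theorem card_cyc {D : Divisor Qb (laurentBaseChange Qb F₀)} (hD : 0 ≤ D) :
    ((Multiset.card (cyc E D) : ℕ) : ℤ) = Divisor.degree D := by
  unfold cyc
  rw [Multiset.card_map, Finsupp.card_toMultiset, H35.degree_eq_sum]
  have h := sum_natD hD (fun _ => (1 : ℝ))
  simp only [mul_one] at h
  have h2 : (((natD D).sum fun _ => id : ℕ) : ℝ) = ((D.sum fun _ k => k : ℤ) : ℝ) := by
    unfold Finsupp.sum at h ⊢
    push_cast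
    exact h
  exact_mod_cast h2

theorem cycAbs_cyc {D : Divisor Qb (laurentBaseChange Qb F₀)} (hD : 0 ≤ D) :
    H50.cycAbs (cyc E D) = naive E D := by
  unfold H50.cycAbs cyc naive
  rw [Multiset.map_map, sum_map_toMultiset, sum_natD hD]
  unfold Finsupp.sum
  refine Finset.sum_congr rfl fun P _ => ?_
  show _ * ht (npt E P) = _
  rw [ht_npt]

theorem exists_one_of_mem_cyc {D : Divisor Qb (laurentBaseChange Qb F₀)}
    {y : Fin (E.r + 1) → Qb} (hy : y ∈ cyc E D) : ∃ i, y i = 1 := by
  unfold cyc at hy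
  obtain ⟨P, -, rfl⟩ := Multiset.mem_map.1 hy
  exact ⟨nz E P, npt_nz P⟩

theorem IsRational.isGStable_cyc (hE : IsRational F₀ E)
    {D : Divisor Qb (laurentBaseChange Qb F₀)} (hD : IsInvariant F₀ D) :
    H50.IsGStable (cyc E D) := by
  intro σ
  have h1 : (fun (y : Fin (E.r + 1) → Qb) i => σ (y i)) = conj σ := rfl
  rw [h1]
  unfold cyc
  rw [Multiset.map_map]
  have h2 : (conj σ ∘ npt E) = npt E ∘ fun P => arithmeticGalois F₀ σ • P := by
    funext P
    exact (hE.npt_smul σ P).symm
  rw [h2, ← Multiset.map_map, Finsupp.toMultiset_map, ← natD_smul, hD σ]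

theorem cyc_injOn : Set.InjOn (cyc E) {D : Divisor Qb (laurentBaseChange Qb F₀) | 0 ≤ D} := by
  classical
  intro D hD D' hD' h
  unfold cyc at h
  have h1 := Multiset.map_injective npt_injective h
  have h2 : natD D = natD D' := by
    rw [← Finsupp.toMultiset_toFinsupp (natD D), h1, Finsupp.toMultiset_toFinsupp]
  ext P
  have h3 := DFunLike.congr_fun h2 P
  rw [natD_apply, natD_apply] at h3
  have h0 : 0 ≤ D P := by
    have := Finsupp.le_def.mp hD P
    simpa using this
  have h0' : 0 ≤ D' P := by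
    have := Finsupp.le_def.mp hD' P
    simpa using this
  omega

/-- **Northcott for effective invariant divisors** (core of T-NC). -/
theorem IsRational.northcott (hE : IsRational F₀ E) (e : ℕ) (B : ℝ) :
    {D : Divisor Qb (laurentBaseChange Qb F₀) |
      0 ≤ D ∧ IsInvariant F₀ D ∧ Divisor.degree D ≤ e ∧ naive E D ≤ B}.Finite := by
  have hfin := H50.northcott_cycle_abs (ι := Fin (E.r + 1)) e B
  refine Set.Finite.of_injOn (f := cyc E) ?_ ?_ hfin
  · rintro D ⟨h0, hinv, hdeg, hN⟩
    refine ⟨?_, hE.isGStable_cyc hinv, fun y hy => exists_one_of_mem_cyc hy, ?_⟩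
    · have := card_cyc (E := E) h0
      omega
    · rw [cycAbs_cyc h0]
      exact hN
  · exact cyc_injOn.mono fun D hD => hD.1

end Rational

/-! ## The package axiom -/

section Top

open Fermat.Agent.S17.H736

variable {N : ℕ} [NeZero N]

/-- the form embedding of a `TopInput` is rational -/
theorem isRational_top (T : TopInput N) : IsRational (modularFunctionFieldFull N) T.E₂ where
  x_fixed := T.x_fixed
  vinf_fixed := fun σ => by
    rw [T.vinf₂]
    exact JZero.galois_smul_cusp N σ

/-- **T-NC**: the Northcott axiom of the pairing package of `J₀(N)`. -/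
theorem topNorthcott (T : TopInput N) : T.NorthcottStatement := by
  intro e B
  have h := (isRational_top T).northcott e B
  refine Set.Finite.of_injOn (f := fun D : Dv N => D.1) ?_ Subtype.val_injective.injOn h
  rintro D ⟨hdeg, hN⟩
  refine ⟨D.nonneg, D.isInvariant, ?_, hN⟩
  rw [← coe_degHom]
  exact_mod_cast hdeg

end Top

end Fermat.Agent.S17.H696

end
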